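import Fermat.Agent.GR.B.Reps

/-!
# S41: correspondences between two subgroups of `SL₂(ℤ)`

Same formalism as `GR.B.Reps`, but between two groups: a `Corr Γ₁ Γ₂` is a finite family of real
matrices `α i` of positive determinant with `α i * γ = coc γ i * α (perm γ i)`, `γ ∈ Γ₁`,
`coc γ i ∈ Γ₂`.  It maps `Hom(Γ₂, M)` to `Hom(Γ₁, M)` by `(𝒜 φ)(γ) = ∑ i, φ (coc γ i)`.
-/

set_option autoImplicit false

open CongruenceSubgroup Matrix.SpecialLinearGroup
open scoped MatrixGroups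

namespace Fermat.Agent.S41

/-- A correspondence, given by explicit coset representatives. -/
structure Corr (Γ₁ Γ₂ : Subgroup SL(2, ℤ)) where
  ι : Type
  fin : Fintype ι
  α : ι → GL (Fin 2) ℝ
  det_pos : ∀ i, 0 < ((α i).det : ℝ)
  perm : Γ₁ → Equiv.Perm ι
  coc : Γ₁ → ι → Γ₂
  rel : ∀ (γ : Γ₁) (i : ι),
    α i * mapGL ℝ (γ : SL(2, ℤ)) = mapGL ℝ (coc γ i : SL(2, ℤ)) * α (perm γ i)
  perm_mul : ∀ (γ γ' : Γ₁) (i : ι), perm (γ * γ') i = perm γ' (perm γ i)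

attribute [instance] Corr.fin

namespace Corr

variable {Γ₁ Γ₂ Γ₃ : Subgroup SL(2, ℤ)} (A : Corr Γ₁ Γ₂)

theorem coc_mul (γ γ' : Γ₁) (i : A.ι) :
    A.coc (γ * γ') i = A.coc γ i * A.coc γ' (A.perm γ i) := by
  have h1 := A.rel (γ * γ') i
  have h2 := A.rel γ i
  have h3 := A.rel γ' (A.perm γ i)
  rw [A.perm_mul] at h1
  have h4 : mapGL ℝ ((A.coc (γ * γ') i : Γ₂) : SL(2, ℤ)) =
      mapGL ℝ (((A.coc γ i * A.coc γ' (A.perm γ i) : Γ₂)) : SL(2, ℤ)) := by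
    apply mul_right_cancel (b := A.α (A.perm γ' (A.perm γ i)))
    rw [← h1, Subgroup.coe_mul, Subgroup.coe_mul, map_mul, map_mul, ← mul_assoc, h2, mul_assoc, h3,
      mul_assoc]
  exact Subtype.ext (mapGL_injective h4)

theorem perm_one : A.perm 1 = 1 := by
  ext j
  have := A.perm_mul 1 1 ((A.perm 1).symm j)
  rw [mul_one] at this
  simpa using this.symm

theorem coc_one (i : A.ι) : A.coc 1 i = 1 := by
  have := A.coc_mul 1 1 i
  rw [mul_one, A.perm_one] at this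
  simpa using this

/-- The operator `Hom(Γ₂, M) → Hom(Γ₁, M)` (transfer formula). -/
def op (M : Type*) [AddCommGroup M] : (Additive Γ₂ →+ M) →+ (Additive Γ₁ →+ M) where
  toFun φ :=
    { toFun := fun γ => ∑ i, φ (Additive.ofMul (A.coc (Additive.toMul γ) i))
      map_zero' := by simp [A.coc_one]
      map_add' := by
        intro γ γ'
        have h1 : ∀ i, φ (Additive.ofMul (A.coc (Additive.toMul (γ + γ')) i)) =
            φ (Additive.ofMul (A.coc (Additive.toMul γ) i)) +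
              φ (Additive.ofMul (A.coc (Additive.toMul γ') (A.perm (Additive.toMul γ) i))) := by
          intro i
          rw [toMul_add, A.coc_mul, ofMul_mul, map_add]
        simp only [h1, Finset.sum_add_distrib]
        congr 1
        exact Equiv.sum_comp (A.perm (Additive.toMul γ))
          (fun i => φ (Additive.ofMul (A.coc (Additive.toMul γ') i))) }
  map_zero' := by
    refine AddMonoidHom.ext fun γ => ?_
    simp
  map_add' φ ψ := by
    refine AddMonoidHom.ext fun γ => ?_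
    simp [Finset.sum_add_distrib]

@[simp] theorem op_apply {M : Type*} [AddCommGroup M] (φ : Additive Γ₂ →+ M) (γ : Γ₁) :
    A.op M φ (Additive.ofMul γ) = ∑ i, φ (Additive.ofMul (A.coc γ i)) := rfl

/-- naturality in the coefficient group. -/
theorem op_comp {M M' : Type*} [AddCommGroup M] [AddCommGroup M'] (g : M →+ M')
    (φ : Additive Γ₂ →+ M) : A.op M' (g.comp φ) = g.comp (A.op M φ) := by
  refine AddMonoidHom.ext fun γ => ?_
  induction γ using Additive.rec with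
  | ofMul γ => simp

theorem op_smul {R M : Type*} [Semiring R] [AddCommGroup M] [Module R M] (c : R)
    (φ : Additive Γ₂ →+ M) : A.op M (c • φ) = c • A.op M φ := by
  refine AddMonoidHom.ext fun γ => ?_
  induction γ using Additive.rec with
  | ofMul γ => simp [Finset.smul_sum]

/-- distinct indices give distinct classes `ℝ_{>0} Γ₂ α i`. -/
def Reduced : Prop :=
  ∀ (i j : A.ι) (g : Γ₂) (c : ℝ), 0 < c →
    ((A.α i : GL (Fin 2) ℝ) : Matrix (Fin 2) (Fin 2) ℝ) =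
      c • ((mapGL ℝ (g : SL(2, ℤ)) * A.α j : GL (Fin 2) ℝ) : Matrix (Fin 2) (Fin 2) ℝ) → i = j

/-- composition: `(A.comp B).op = A.op ∘ B.op`, representatives `β j * α i`. -/
def comp (B : Corr Γ₂ Γ₃) : Corr Γ₁ Γ₃ where
  ι := A.ι × B.ι
  fin := inferInstance
  α x := B.α x.2 * A.α x.1
  det_pos x := by
    rw [map_mul, Units.val_mul]
    exact mul_pos (B.det_pos _) (A.det_pos _)
  perm γ :=
    { toFun := fun x => (A.perm γ x.1, B.perm (A.coc γ x.1) x.2)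
      invFun := fun x => ((A.perm γ).symm x.1,
        (B.perm (A.coc γ ((A.perm γ).symm x.1))).symm x.2)
      left_inv := by
        intro x
        simp
      right_inv := by
        intro x
        simp }
  coc γ x := B.coc (A.coc γ x.1) x.2
  rel γ x := by
    show B.α x.2 * A.α x.1 * _ = _ * (B.α _ * A.α _)
    rw [mul_assoc, A.rel, ← mul_assoc, B.rel, mul_assoc]
    rfl
  perm_mul γ γ' x := by
    show (A.perm (γ * γ') x.1, B.perm (A.coc (γ * γ') x.1) x.2) = (_, _)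
    rw [A.perm_mul, A.coc_mul, B.perm_mul]
    rfl

theorem comp_op (B : Corr Γ₂ Γ₃) (M : Type*) [AddCommGroup M] (φ : Additive Γ₃ →+ M) :
    (A.comp B).op M φ = A.op M (B.op M φ) := by
  refine AddMonoidHom.ext fun γ => ?_
  induction γ using Additive.rec with
  | ofMul γ =>
    rw [op_apply, op_apply]
    simp only [op_apply]
    exact Fintype.sum_prod_type _

/-- disjoint union: `(A.sum A').op = A.op + A'.op`. -/
def sum (A' : Corr Γ₁ Γ₂) : Corr Γ₁ Γ₂ where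
  ι := A.ι ⊕ A'.ι
  fin := inferInstance
  α := Sum.elim A.α A'.α
  det_pos x := by
    rcases x with i | i
    · exact A.det_pos i
    · exact A'.det_pos i
  perm γ := Equiv.sumCongr (A.perm γ) (A'.perm γ)
  coc γ := Sum.elim (A.coc γ) (A'.coc γ)
  rel γ x := by
    rcases x with i | i
    · exact A.rel γ i
    · exact A'.rel γ i
  perm_mul γ γ' x := by
    rcases x with i | i
    · simp [A.perm_mul]
    · simp [A'.perm_mul]

theorem sum_op (A' : Corr Γ₁ Γ₂) (M : Type*) [AddCommGroup M] (φ : Additive Γ₂ →+ M) :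
    (A.sum A').op M φ = A.op M φ + A'.op M φ := by
  refine AddMonoidHom.ext fun γ => ?_
  induction γ using Additive.rec with
  | ofMul γ =>
    rw [AddMonoidHom.add_apply, op_apply, op_apply, op_apply]
    exact Fintype.sum_sum_type _

end Corr

/-- restriction `Hom(Γ₂, M) → Hom(Γ₁, M)`, `Γ₁ ≤ Γ₂`. -/
def resCorr {Γ₁ Γ₂ : Subgroup SL(2, ℤ)} (h : Γ₁ ≤ Γ₂) : Corr Γ₁ Γ₂ where
  ι := Unit
  fin := inferInstance
  α _ := 1
  det_pos _ := by simp
  perm _ := 1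
  coc γ _ := ⟨γ, h γ.2⟩
  rel γ _ := by simp
  perm_mul _ _ _ := rfl

/-- composition with a homomorphism `c : Γ₁ → Γ₂` induced by conjugation with `w`. -/
def conjCorr {Γ₁ Γ₂ : Subgroup SL(2, ℤ)} (w : GL (Fin 2) ℝ) (hw : 0 < (w.det : ℝ)) (c : Γ₁ →* Γ₂)
    (hc : ∀ γ : Γ₁, w * mapGL ℝ (γ : SL(2, ℤ)) = mapGL ℝ (c γ : SL(2, ℤ)) * w) : Corr Γ₁ Γ₂ where
  ι := Unit
  fin := inferInstance
  α _ := w
  det_pos _ := hw
  perm _ := 1
  coc γ _ := c γ
  rel γ _ := hc γ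
  perm_mul _ _ _ := rfl

@[simp] theorem resCorr_op_apply {Γ₁ Γ₂ : Subgroup SL(2, ℤ)} (h : Γ₁ ≤ Γ₂) {M : Type*}
    [AddCommGroup M] (φ : Additive Γ₂ →+ M) (γ : Γ₁) :
    (resCorr h).op M φ (Additive.ofMul γ) = φ (Additive.ofMul (⟨γ, h γ.2⟩ : Γ₂)) := by
  simp [resCorr]

@[simp] theorem conjCorr_op_apply {Γ₁ Γ₂ : Subgroup SL(2, ℤ)} (w : GL (Fin 2) ℝ)
    (hw : 0 < (w.det : ℝ)) (c : Γ₁ →* Γ₂)
    (hc : ∀ γ : Γ₁, w * mapGL ℝ (γ : SL(2, ℤ)) = mapGL ℝ (c γ : SL(2, ℤ)) * w) {M : Type*}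
    [AddCommGroup M] (φ : Additive Γ₂ →+ M) (γ : Γ₁) :
    (conjCorr w hw c hc).op M φ (Additive.ofMul γ) = φ (Additive.ofMul (c γ)) := by
  simp [conjCorr]

/-- the element `h ∈ Γ₂` with `(x.out)⁻¹ γ = h ((γ⁻¹ • x).out)⁻¹`. -/
noncomputable def coresCoc {Γ₁ Γ₂ : Subgroup SL(2, ℤ)} (γ : Γ₁) (x : Γ₁ ⧸ Γ₂.subgroupOf Γ₁) : Γ₁ :=
  x.out⁻¹ * γ * (γ⁻¹ • x).out

theorem coresCoc_mem {Γ₁ Γ₂ : Subgroup SL(2, ℤ)} (γ : Γ₁) (x : Γ₁ ⧸ Γ₂.subgroupOf Γ₁) :
    ((coresCoc γ x : Γ₁) : SL(2, ℤ)) ∈ Γ₂ := by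
  have h1 : ((γ⁻¹ * x.out : Γ₁) : Γ₁ ⧸ Γ₂.subgroupOf Γ₁) = ((γ⁻¹ • x).out : Γ₁) := by
    rw [QuotientGroup.out_eq']
    conv_rhs => rw [← QuotientGroup.out_eq' x]
    rfl
  have h2 := QuotientGroup.eq.mp h1
  have h3 : (γ⁻¹ * x.out)⁻¹ * (γ⁻¹ • x).out = coresCoc γ x := by
    simp [coresCoc, mul_assoc]
  rw [h3] at h2
  exact h2

/-- transfer (corestriction) `Hom(Γ₂, M) → Hom(Γ₁, M)`, `Γ₂` of finite index in `Γ₁`;
representatives `(x.out)⁻¹`, `x ∈ Γ₁ / (Γ₂ ∩ Γ₁)`. -/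
noncomputable def coresCorr (Γ₁ Γ₂ : Subgroup SL(2, ℤ)) [(Γ₂.subgroupOf Γ₁).FiniteIndex] :
    Corr Γ₁ Γ₂ where
  ι := Γ₁ ⧸ Γ₂.subgroupOf Γ₁
  fin := Fintype.ofFinite _
  α x := mapGL ℝ ((x.out⁻¹ : Γ₁) : SL(2, ℤ))
  det_pos x := by simp
  perm γ := MulAction.toPerm γ⁻¹
  coc γ x := ⟨coresCoc γ x, coresCoc_mem γ x⟩
  rel γ x := by
    rw [← map_mul, ← map_mul]
    congr 1
    simp [coresCoc, mul_assoc]
  perm_mul γ γ' x := by
    simp [mul_smul]

end Fermat.Agent.S41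

namespace Fermat.Agent.GR.B.Reps

open Fermat.Agent.S41

/-- a `Reps N` is a correspondence from `Γ₀(N)` to itself. -/
def toCorr {N : ℕ} (H : Reps N) : Corr (Gamma0 N) (Gamma0 N) where
  ι := H.ι
  fin := H.fin
  α := H.α
  det_pos := H.det_pos
  perm := H.perm
  coc := H.coc
  rel := H.rel
  perm_mul := H.perm_mul

theorem toCorr_op {N : ℕ} (H : Reps N) (M : Type*) [AddCommGroup M]
    (φ : Additive (Gamma0 N) →+ M) : H.toCorr.op M φ = H.op M φ :=
  AddMonoidHom.ext fun _ => rfl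

end Fermat.Agent.GR.B.Reps
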