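import Fermat.Agent.GR.B.LatDefs
import Fermat.Agent.GR.B.Concrete

/-!
# S41 (level raising): basic definitions

`N` the level, `q` a prime not dividing `N`.

* `inclQ N q : Γ₀(Nq) →* Γ₀(N)`: the inclusion.
* `conjQ N q : Γ₀(Nq) →* Γ₀(N)`: conjugation by `diag(q, 1)`, `[[a,b],[c,d]] ↦ [[a, q b], [c / q, d]]`.
* `InKer q φ₁ φ₂`: `(φ₁, φ₂)` lies in the kernel of `α = res₁ + res₂`.
* `HasCol γ a c`, `colVal φ a c`: the value of `φ` on the matrices with first column `(a, c)`.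
-/

set_option autoImplicit false

open CongruenceSubgroup Matrix.SpecialLinearGroup
open scoped MatrixGroups

namespace Fermat.Agent.S41

open Fermat.Agent.GR.B

theorem Gamma0_mul_le (N q : ℕ) : Gamma0 (N * q) ≤ Gamma0 N := by
  intro γ hγ
  rw [Gamma0_mem, ZMod.intCast_zmod_eq_zero_iff_dvd] at hγ ⊢
  exact dvd_trans (by exact_mod_cast Dvd.intro q rfl) hγ

/-- the inclusion `Γ₀(Nq) → Γ₀(N)`. -/
def inclQ (N q : ℕ) : Gamma0 (N * q) →* Gamma0 N := Subgroup.inclusion (Gamma0_mul_le N q)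

@[simp] theorem coe_inclQ (N q : ℕ) (γ : Gamma0 (N * q)) :
    ((inclQ N q γ : Gamma0 N) : SL(2, ℤ)) = γ := rfl

/-- `[[a, q b], [c / q, d]]`. -/
def conjMat (q : ℕ) (g : SL(2, ℤ)) (h : (q : ℤ) ∣ g 1 0) : SL(2, ℤ) :=
  ⟨!![g 0 0, q * g 0 1; g 1 0 / q, g 1 1], by
    obtain ⟨e, he⟩ := h
    have hdet : g 0 0 * g 1 1 - g 0 1 * g 1 0 = 1 := by
      have := g.det_coe
      rwa [Matrix.det_fin_two] at this
    rw [Matrix.det_fin_two_of]
    rcases eq_or_ne (q : ℤ) 0 with hq | hq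
    · rw [hq, zero_mul] at he
      rw [he] at hdet
      rw [hq]
      simpa using hdet
    · rw [he, Int.mul_ediv_cancel_left _ hq]
      rw [he] at hdet
      linarith⟩

@[simp] theorem conjMat_00 (q : ℕ) (g : SL(2, ℤ)) (h : (q : ℤ) ∣ g 1 0) :
    (conjMat q g h) 0 0 = g 0 0 := rfl
@[simp] theorem conjMat_01 (q : ℕ) (g : SL(2, ℤ)) (h : (q : ℤ) ∣ g 1 0) :
    (conjMat q g h) 0 1 = q * g 0 1 := rfl
@[simp] theorem conjMat_10 (q : ℕ) (g : SL(2, ℤ)) (h : (q : ℤ) ∣ g 1 0) :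
    (conjMat q g h) 1 0 = g 1 0 / q := rfl
@[simp] theorem conjMat_11 (q : ℕ) (g : SL(2, ℤ)) (h : (q : ℤ) ∣ g 1 0) :
    (conjMat q g h) 1 1 = g 1 1 := rfl

theorem sl2_mul_apply (g g' : SL(2, ℤ)) (i j : Fin 2) :
    (g * g') i j = g i 0 * g' 0 j + g i 1 * g' 1 j := by
  rw [Matrix.SpecialLinearGroup.coe_mul, Matrix.mul_apply, Fin.sum_univ_two]

theorem dvd_of_mem_Gamma0_mul {N q : ℕ} (γ : Gamma0 (N * q)) : (q : ℤ) ∣ (γ : SL(2, ℤ)) 1 0 :=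
  dvd_trans (by exact_mod_cast Dvd.intro_left N rfl) (dvd_of_mem_Gamma0 γ)

theorem conjMat_mem {N q : ℕ} [NeZero q] (γ : Gamma0 (N * q)) :
    conjMat q (γ : SL(2, ℤ)) (dvd_of_mem_Gamma0_mul γ) ∈ Gamma0 N := by
  apply mem_Gamma0_of_dvd
  obtain ⟨e, he⟩ := dvd_of_mem_Gamma0 γ
  have hq : (q : ℤ) ≠ 0 := by exact_mod_cast NeZero.ne q
  have : (conjMat q (γ : SL(2, ℤ)) (dvd_of_mem_Gamma0_mul γ)) 1 0 = (γ : SL(2, ℤ)) 1 0 / q := rfl
  rw [this, he]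
  refine ⟨e, ?_⟩
  push_cast
  rw [show (N : ℤ) * q * e = q * (N * e) by ring, Int.mul_ediv_cancel_left _ hq]

/-- conjugation by `diag(q, 1)`: `Γ₀(Nq) → Γ₀(N)`. -/
def conjQ (N q : ℕ) [NeZero q] : Gamma0 (N * q) →* Gamma0 N where
  toFun γ := ⟨conjMat q (γ : SL(2, ℤ)) (dvd_of_mem_Gamma0_mul γ), conjMat_mem γ⟩
  map_one' := by
    apply Subtype.ext
    apply Matrix.SpecialLinearGroup.ext
    intro i j
    fin_cases i <;> fin_cases j <;> simp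
  map_mul' γ γ' := by
    apply Subtype.ext
    apply Matrix.SpecialLinearGroup.ext
    have hq : (q : ℤ) ≠ 0 := by exact_mod_cast NeZero.ne q
    obtain ⟨e, he⟩ := dvd_of_mem_Gamma0_mul γ
    obtain ⟨e', he'⟩ := dvd_of_mem_Gamma0_mul γ'
    have h1 : (γ : SL(2, ℤ)) 1 0 / (q : ℤ) = e := by rw [he, Int.mul_ediv_cancel_left _ hq]
    have h2 : (γ' : SL(2, ℤ)) 1 0 / (q : ℤ) = e' := by rw [he', Int.mul_ediv_cancel_left _ hq]
    have h3 : ((γ : SL(2, ℤ)) 1 0 * (γ' : SL(2, ℤ)) 0 0 + (γ : SL(2, ℤ)) 1 1 * (γ' : SL(2, ℤ)) 1 0)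
        / (q : ℤ) = e * (γ' : SL(2, ℤ)) 0 0 + (γ : SL(2, ℤ)) 1 1 * e' := by
      rw [he, he', show (q : ℤ) * e * (γ' : SL(2, ℤ)) 0 0 + (γ : SL(2, ℤ)) 1 1 * (q * e') =
        q * (e * (γ' : SL(2, ℤ)) 0 0 + (γ : SL(2, ℤ)) 1 1 * e') by ring,
        Int.mul_ediv_cancel_left _ hq]
    intro i j
    fin_cases i <;> fin_cases j
    · show (conjMat q _ (dvd_of_mem_Gamma0_mul (γ * γ'))) 0 0 = (conjMat q _ (dvd_of_mem_Gamma0_mul γ) *
        conjMat q _ (dvd_of_mem_Gamma0_mul γ')) 0 0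
      rw [sl2_mul_apply, conjMat_00, conjMat_00, conjMat_00, conjMat_01, conjMat_10,
        Subgroup.coe_mul, sl2_mul_apply, h2, he']
      ring
    · show (conjMat q _ (dvd_of_mem_Gamma0_mul (γ * γ'))) 0 1 = (conjMat q _ (dvd_of_mem_Gamma0_mul γ) *
        conjMat q _ (dvd_of_mem_Gamma0_mul γ')) 0 1
      rw [sl2_mul_apply, conjMat_01, conjMat_00, conjMat_01, conjMat_01, conjMat_11,
        Subgroup.coe_mul, sl2_mul_apply]
      ring
    · show (conjMat q _ (dvd_of_mem_Gamma0_mul (γ * γ'))) 1 0 = (conjMat q _ (dvd_of_mem_Gamma0_mul γ) *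
        conjMat q _ (dvd_of_mem_Gamma0_mul γ')) 1 0
      rw [sl2_mul_apply, conjMat_10, conjMat_10, conjMat_00, conjMat_11, conjMat_10,
        Subgroup.coe_mul, sl2_mul_apply, h1, h2, h3]
    · show (conjMat q _ (dvd_of_mem_Gamma0_mul (γ * γ'))) 1 1 = (conjMat q _ (dvd_of_mem_Gamma0_mul γ) *
        conjMat q _ (dvd_of_mem_Gamma0_mul γ')) 1 1
      rw [sl2_mul_apply, conjMat_11, conjMat_10, conjMat_01, conjMat_11, conjMat_11,
        Subgroup.coe_mul, sl2_mul_apply, h1, he]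
      ring

variable {N : ℕ} {B : Type*} [AddCommGroup B]

/-- `(φ₁, φ₂) ∈ ker (res₁ + res₂)`. -/
def InKer (q : ℕ) [NeZero q] (φ₁ φ₂ : Additive (Gamma0 N) →+ B) : Prop :=
  ∀ γ : Gamma0 (N * q),
    φ₁ (Additive.ofMul (inclQ N q γ)) + φ₂ (Additive.ofMul (conjQ N q γ)) = 0

/-- `γ` has first column `(a, c)`. -/
def HasCol (γ : Gamma0 N) (a c : ℤ) : Prop :=
  (γ : SL(2, ℤ)) 0 0 = a ∧ (γ : SL(2, ℤ)) 1 0 = c

open Classical in
/-- the value of `φ` on the matrices with first column `(a, c)` (`0` if there is none). -/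
noncomputable def colVal (φ : Additive (Gamma0 N) →+ B) (a c : ℤ) : B :=
  if h : ∃ γ : Gamma0 N, HasCol γ a c then φ (Additive.ofMul h.choose) else 0

/-- `F_c(q² a) = F_c(a) + κ` for all `c` prime to `q`. -/
def QInv (q : ℕ) (φ : Additive (Gamma0 N) →+ B) : Prop :=
  ∃ κ : B, ∀ a c : ℤ, (N : ℤ) ∣ c → IsCoprime a c → ¬ (q : ℤ) ∣ c →
    colVal φ ((q : ℤ) ^ 2 * a) c = colVal φ a c + κ

end Fermat.Agent.S41
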